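import Fermat.Agent.SquareSequences.Lucas

/-!
# Markov triples

The positive solutions of `a² + b² + c² = 3 a b c` form one tree under Vieta jumps (Markov).
Their entries are pairwise coprime, and a largest entry `p ^ k` or `2 p ^ k` determines the
triple (Button, Zhang, Lang and Tan).
-/

set_option autoImplicit false

namespace FA.MarkovTriples

/-- A solution of Markov's equation in positive integers. -/
def IsMarkov (a b c : ℕ) : Prop :=
  0 < a ∧ 0 < b ∧ 0 < c ∧ a ^ 2 + b ^ 2 + c ^ 2 = 3 * a * b * c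

/-- Markov's tree: what is reached from `(1, 1, 1)` by transpositions and Vieta jumps. -/
inductive Reach : ℕ → ℕ → ℕ → Prop
  | root : Reach 1 1 1
  | swapLeft {a b c : ℕ} : Reach a b c → Reach b a c
  | swapRight {a b c : ℕ} : Reach a b c → Reach a c b
  | jump {a b c c' : ℕ} : Reach a b c → c + c' = 3 * a * b → Reach a b c'

theorem IsMarkov.swapLeft {a b c : ℕ} (h : IsMarkov a b c) : IsMarkov b a c :=
  ⟨h.2.1, h.1, h.2.2.1, by rw [add_comm (b ^ 2), h.2.2.2]; ring⟩

theorem IsMarkov.swapRight {a b c : ℕ} (h : IsMarkov a b c) : IsMarkov a c b :=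
  ⟨h.1, h.2.2.1, h.2.1, by rw [add_assoc, add_comm (c ^ 2), ← add_assoc, h.2.2.2]; ring⟩

theorem IsMarkov.jump {a b c c' : ℕ} (h : IsMarkov a b c) (e : c + c' = 3 * a * b) :
    IsMarkov a b c' := by
  obtain ⟨ha, hb, hc, he⟩ := h
  refine ⟨ha, hb, Nat.pos_of_ne_zero fun h0 => ?_, ?_⟩
  · subst h0
    rw [add_zero] at e
    rw [← e, ← sq] at he
    have : 0 < a ^ 2 := pow_pos ha 2
    omega
  · zify at e he ⊢
    linear_combination he + ((c' : ℤ) - c) * e

/-- Reduction to sorted triples. -/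
theorem sorted_cases {P : ℕ → ℕ → ℕ → Prop} (hl : ∀ a b c, P a b c → P b a c)
    (hr : ∀ a b c, P a b c → P a c b) (h : ∀ a b c, a ≤ b → b ≤ c → P a b c) (a b c : ℕ) :
    P a b c := by
  rcases le_total a b with h1 | h1 <;> rcases le_total b c with h2 | h2 <;>
    rcases le_total a c with h3 | h3
  all_goals first
    | exact h _ _ _ h1 h2
    | exact hr _ _ _ (h _ _ _ h3 h2)
    | exact hr _ _ _ (hl _ _ _ (h _ _ _ h3 h1))
    | exact hl _ _ _ (h _ _ _ h1 h3)
    | exact hl _ _ _ (hr _ _ _ (h _ _ _ h2 h3))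
    | exact hl _ _ _ (hr _ _ _ (hl _ _ _ (h _ _ _ h2 h1)))

/-- The largest entry `c ≥ 2` is at least twice the next one and has a smaller partner. -/
theorem sorted_partner {a b c : ℕ} (h : IsMarkov a b c) (hab : a ≤ b) (hbc : b ≤ c) (hc : 2 ≤ c) :
    ∃ c', c + c' = 3 * a * b ∧ c' ≤ b ∧ 2 * b ≤ c := by
  obtain ⟨ha, hb, hc0, he⟩ := h
  have hcb : c ≤ 3 * a * b := by nlinarith
  obtain ⟨c', hc'⟩ := Nat.exists_eq_add_of_le hcb
  have hc'b : c' ≤ b := by
    zify at he hab hbc hc hc' ⊢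
    have key : ((b : ℤ) - c) * (b - c') = a ^ 2 + 2 * b ^ 2 - 3 * a * b ^ 2 := by
      linear_combination -he - ((c : ℤ) - b) * hc'
    by_contra hlt
    push Not at hlt
    have h1 : (a : ℤ) ^ 2 + 2 * b ^ 2 - 3 * a * b ^ 2 ≤ 0 := by nlinarith
    have h2 : (b : ℤ) = c := by nlinarith
    rw [← h2] at he
    have h4 : (b : ℤ) ^ 2 * (3 * a - 2) ≤ b ^ 2 * 1 := by nlinarith
    have ha1 : (a : ℤ) = 1 := by nlinarith
    rw [ha1] at he
    nlinarith
  exact ⟨c', hc'.symm, hc'b, by nlinarith⟩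

/-- **Markov's theorem**: the tree contains every solution. -/
theorem reach_of_isMarkov {a b c : ℕ} (h : IsMarkov a b c) : Reach a b c := by
  induction hs : a + b + c using Nat.strong_induction_on generalizing a b c with
  | _ s ih =>
    subst hs
    revert h ih
    refine sorted_cases (P := fun a b c => IsMarkov a b c → (∀ m < a + b + c, ∀ {a b c : ℕ},
      IsMarkov a b c → a + b + c = m → Reach a b c) → Reach a b c) ?_ ?_ ?_ a b c
    · exact fun a b c H h ih => (H h.swapLeft (fun m hm => ih m (by omega))).swapLeft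
    · exact fun a b c H h ih => (H h.swapRight (fun m hm => ih m (by omega))).swapRight
    · intro a b c hab hbc h ih
      rcases Nat.lt_or_ge c 2 with hc | hc
      · obtain ⟨ha, hb, -, -⟩ := h
        obtain rfl : c = 1 := by omega
        obtain rfl : b = 1 := by omega
        obtain rfl : a = 1 := by omega
        exact Reach.root
      · obtain ⟨c', e, hcb, hb2⟩ := sorted_partner h hab hbc hc
        have h' := h.jump e
        exact (ih (a + b + c') (by have := h.2.1; omega) h' rfl).jump (by omega)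

theorem isMarkov_of_reach {a b c : ℕ} (h : Reach a b c) : IsMarkov a b c := by
  induction h with
  | root => exact ⟨one_pos, one_pos, one_pos, rfl⟩
  | swapLeft _ ih => exact ih.swapLeft
  | swapRight _ ih => exact ih.swapRight
  | jump _ e ih => exact ih.jump e

/-- **The entries are pairwise coprime.** -/
theorem coprime {a b c : ℕ} (h : IsMarkov a b c) :
    a.Coprime b ∧ a.Coprime c ∧ b.Coprime c := by
  have key : ∀ {a b c}, Reach a b c → a.Coprime b ∧ a.Coprime c ∧ b.Coprime c := by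
    intro a b c h
    induction h with
    | root => decide
    | swapLeft _ ih => exact ⟨ih.1.symm, ih.2.2, ih.2.1⟩
    | swapRight _ ih => exact ⟨ih.2.1, ih.1, ih.2.2.symm⟩
    | @jump a b c c' _ e ih =>
      refine ⟨ih.1, ?_, ?_⟩ <;> refine Nat.coprime_of_dvd fun p hp hx hc => hp.not_dvd_one ?_
      · have : p ∣ c := (Nat.dvd_add_left hc).1 (e ▸ (hx.mul_left 3).mul_right b)
        exact ih.2.1 ▸ Nat.dvd_gcd hx this
      · have : p ∣ c := (Nat.dvd_add_left hc).1 (e ▸ hx.mul_left (3 * a))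
        exact ih.2.2 ▸ Nat.dvd_gcd hx this
  exact key (reach_of_isMarkov h)

theorem dvd_sq_add_sq {a b c : ℕ} (h : IsMarkov a b c) : (c : ℤ) ∣ (a : ℤ) ^ 2 + (b : ℤ) ^ 2 := by
  have := h.2.2.2
  zify at this
  exact ⟨3 * a * b - c, by linear_combination this⟩

theorem not_four_dvd {a b c : ℕ} (h : IsMarkov a b c) : ¬ 4 ∣ c := fun h4 => by
  obtain ⟨-, hac, hbc⟩ := coprime h
  have odd : ∀ {t : ℕ}, t.Coprime c → (t : ℤ) % 2 = 1 := fun {t} ht => by
    have : ¬ 2 ∣ t := fun h2 => absurd (ht ▸ Nat.dvd_gcd h2 ((by norm_num : 2 ∣ 4).trans h4))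
      (by norm_num)
    omega
  have h0 := (Int.natCast_dvd_natCast.2 h4).trans (dvd_sq_add_sq h)
  have sq1 : ∀ {t : ℤ}, t % 2 = 1 → t ^ 2 % 4 = 1 := fun {t} ht => by
    obtain ⟨m, rfl⟩ : ∃ m, t = 2 * m + 1 := ⟨t / 2, by omega⟩
    rw [show (2 * m + 1) ^ 2 = 4 * (m ^ 2 + m) + 1 by ring]
    omega
  have := sq1 (odd hac)
  have := sq1 (odd hbc)
  omega

/-- **Every odd prime divisor of a Markov number is `1` modulo `4`.** -/
theorem prime_emod_four {a b c p : ℕ} (h : IsMarkov a b c) (hp : p.Prime) (hd : p ∣ c) :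
    p % 4 ≠ 3 := fun h3 => by
  refine FA.SquareSequences.not_dvd_sq_add_sq (M := (p : ℤ)) (x := a) (c := b)
    (by exact_mod_cast hp.pos) (by omega) ?_
    ((Int.natCast_dvd_natCast.2 hd).trans (dvd_sq_add_sq h))
  exact Int.isCoprime_iff_gcd_eq_one.2 ((coprime h).2.2.coprime_dvd_right hd)

/-- **Frobenius's uniqueness** for a largest entry `p ^ k` or `2 p ^ k`. -/
theorem unique_of_primePow {a b a' b' c p k : ℕ} (hp : p.Prime) (hc : c = p ^ k ∨ c = 2 * p ^ k)
    (h : IsMarkov a b c) (hab : a ≤ b) (hbc : b ≤ c) (h' : IsMarkov a' b' c) (hab' : a' ≤ b')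
    (hbc' : b' ≤ c) : a = a' ∧ b = b' := by
  rcases le_or_gt c 2 with hc2 | hc2
  · have small : ∀ {x y : ℕ}, IsMarkov x y c → x ≤ y → y ≤ c → x = 1 ∧ y = 1 := by
      intro x y hxy h1 h2
      obtain ⟨hx, hy, hc0, -⟩ := id hxy
      rcases (show c = 1 ∨ c = 2 by omega) with rfl | rfl
      · omega
      · obtain ⟨c', -, -, h3⟩ := sorted_partner hxy h1 h2 le_rfl
        omega
    obtain ⟨rfl, rfl⟩ := small h hab hbc
    obtain ⟨rfl, rfl⟩ := small h' hab' hbc'
    exact ⟨rfl, rfl⟩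
  obtain ⟨-, -, -, hb2⟩ := sorted_partner h hab hbc (by omega)
  obtain ⟨-, -, -, hb2'⟩ := sorted_partner h' hab' hbc' (by omega)
  have hp2 : p ≠ 2 := fun e => not_four_dvd h (by
    subst e
    rcases hc with rfl | rfl
    · rcases k with _ | _ | k
      · simp at hc2
      · simp at hc2
      · exact ⟨2 ^ k, by ring⟩
    · rcases k with _ | k
      · simp at hc2
      · exact ⟨2 ^ k, by ring⟩)
  have hk : k ≠ 0 := by rintro rfl; simp at hc; omega
  have hpc : p ∣ c := by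
    rcases hc with rfl | rfl
    exacts [dvd_pow_self p hk, (dvd_pow_self p hk).mul_left 2]
  have hpz := Nat.prime_iff_prime_int.1 hp
  -- `p` does not divide both factors
  have hboth : ¬ ((p : ℤ) ∣ (a : ℤ) * b' - a' * b ∧ (p : ℤ) ∣ (a : ℤ) * a' - b * b') := fun hd => by
    have h1 : (p : ℤ) ∣ (b' : ℤ) * ((a : ℤ) ^ 2 - (b : ℤ) ^ 2) := by
      rw [show (b' : ℤ) * ((a : ℤ) ^ 2 - (b : ℤ) ^ 2) =
        (a : ℤ) * ((a : ℤ) * b' - a' * b) + (b : ℤ) * ((a : ℤ) * a' - b * b') by ring]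
      exact (hd.1.mul_left (a : ℤ)).add (hd.2.mul_left (b : ℤ))
    have hb'p : ¬ (p : ℤ) ∣ b' := fun hd' => hp.not_dvd_one
      ((coprime h').2.2 ▸ Nat.dvd_gcd (Int.natCast_dvd_natCast.1 hd') hpc)
    have h2 := (((hpz.dvd_or_dvd h1).resolve_left hb'p).add
      ((Int.natCast_dvd_natCast.2 hpc).trans (dvd_sq_add_sq h)))
    rw [show (a : ℤ) ^ 2 - b ^ 2 + (a ^ 2 + b ^ 2) = 2 * a ^ 2 by ring] at h2
    rcases hpz.dvd_or_dvd h2 with h3 | h3
    · exact hp2 ((Nat.prime_dvd_prime_iff_eq hp Nat.prime_two).1 (by exact_mod_cast h3))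
    · exact hp.not_dvd_one ((coprime h).2.1 ▸
        Nat.dvd_gcd (hp.dvd_of_dvd_pow (n := 2) (by exact_mod_cast h3)) hpc)
  have key : ((a : ℤ) * b' - a' * b) * ((a : ℤ) * a' - b * b') =
      (c : ℤ) ^ 2 * ((a : ℤ) * b - a' * b') := by
    have e1 := h.2.2.2
    have e2 := h'.2.2.2
    zify at e1 e2
    linear_combination (a' : ℤ) * b' * e1 - (a : ℤ) * b * e2
  have hdvd : ((p : ℤ) ^ (2 * k)) ∣ (c : ℤ) ^ 2 := by
    rw [mul_comm 2 k, pow_mul]
    refine pow_dvd_pow_of_dvd ?_ 2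
    rcases hc with rfl | rfl <;> simp
  have hsize : (c : ℤ) ^ 2 ≤ 4 * (p : ℤ) ^ (2 * k) := by
    rw [mul_comm 2 k, pow_mul, show (4 : ℤ) = 2 ^ 2 by norm_num, ← mul_pow]
    refine pow_le_pow_left₀ (by positivity) ?_ 2
    rcases hc with rfl | rfl
    · push_cast
      linarith [show (0 : ℤ) ≤ (p : ℤ) ^ k by positivity]
    · push_cast
      linarith
  have zero_of : ∀ {z : ℤ}, |z| < (b : ℤ) * b' → (p : ℤ) ^ (2 * k) ∣ z → z = 0 := fun hz hd =>
    Int.eq_zero_of_abs_lt_dvd hd (hz.trans_le (by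
      have := mul_le_mul (Int.ofNat_le.2 hb2) (Int.ofNat_le.2 hb2') (by positivity) (by positivity)
      push_cast at this
      nlinarith))
  obtain ⟨ha, hb, -, -⟩ := id h
  obtain ⟨ha', hb', -, -⟩ := id h'
  have g1 : (0 : ℤ) < a * b' := by positivity
  have g2 : (0 : ℤ) < a' * b := by positivity
  have g3 : (a : ℤ) * b' ≤ b * b' := by gcongr
  have g4 : (a' : ℤ) * b ≤ b * b' := by rw [mul_comm (b : ℤ)]; gcongr
  have g5 : (0 : ℤ) < a * a' := by positivity
  have g6 : (a : ℤ) * a' ≤ b * b' := by gcongr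
  rcases (not_and_or.1 hboth) with hn | hn
  · have h0 : (a : ℤ) * a' - b * b' = 0 := zero_of (abs_lt.2 ⟨by linarith, by linarith⟩)
      ((hpz.coprime_iff_not_dvd.2 hn).pow_left.dvd_of_dvd_mul_left (key ▸ hdvd.mul_right _))
    have e : a * a' = b * b' := by zify; linarith
    obtain rfl : a = b := le_antisymm hab (by nlinarith)
    obtain rfl : a' = b' := Nat.eq_of_mul_eq_mul_left ha e
    have := (coprime h).1
    have := (coprime h').1
    simp only [Nat.coprime_self] at *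
    omega
  · have h0 : (a : ℤ) * b' - a' * b = 0 := zero_of (abs_lt.2 ⟨by linarith, by linarith⟩)
      ((hpz.coprime_iff_not_dvd.2 hn).pow_left.dvd_of_dvd_mul_right (key ▸ hdvd.mul_right _))
    have e : a * b' = a' * b := by zify; linarith
    obtain rfl : a = a' := Nat.dvd_antisymm
      ((coprime h).1.dvd_of_dvd_mul_right ⟨b', e.symm⟩)
      ((coprime h').1.dvd_of_dvd_mul_right ⟨b, e⟩)
    exact ⟨rfl, (Nat.eq_of_mul_eq_mul_left ha e).symm⟩

end FA.MarkovTriples
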